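import Fermat.Agent.ArtinHooley.Hypothesis
import Fermat.Agent.EffectiveChebotarev.Region

/-!
# The cyclic pieces on the Riemann hypothesis

On the Riemann hypothesis for `ζ_L` no L-series of an abelian `L/M` vanishes in `re s > 1/2`, and
there their logarithmic derivatives are `O (size / δ ^ 2)`,
`size = 1 + log A(ψ) + n_M log (|t| + 3)`,
summing over `ψ` to at most twice `1 + log |d_L| + n_L log (|t| + 3)`. So the series of a set `C`
of Frobenius elements less its pole is `O (share H / δ ^ 2)`.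
-/

set_option autoImplicit false
set_option linter.style.haveILetI false
set_option linter.unusedSectionVars false

noncomputable section

universe v

open NumberField Module Finset Complex
open FA.DedekindZF (height growA one_le_height)
open FA.EffCheb (charSize one_le_charSize clearedL isCleared_clearedL exists_isClearedFine
  pairs pairW cycL cyc_comm liftChar liftChar_injective)
open FA.ChebError (CycDual share mangoldtF)
open FA.ArtinHooley (FieldRH derivC derivC_nonneg ne_zero_of_half_lt norm_logDeriv_le_of_bounds)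
open FA.ArtinFE (linA linA_pos)
open scoped Real Classical

namespace FA.ChebGRH

section linear

variable {M : Type*} {L : Type v} [Field M] [NumberField M] [Field L] [NumberField L] [Algebra M L]
  [IsGalois M L] (hcomm : ∀ g h : L ≃ₐ[M] L, g * h = h * g)

theorem isClearedFine_clearedL (ψ : (L ≃ₐ[M] L) →* ℂˣ) :
    FA.EffCheb.IsClearedFine ψ (clearedL hcomm ψ) := by
  obtain ⟨H, h⟩ := exists_isClearedFine ψ
  have h' := isCleared_clearedL hcomm ψ
  rwa [FA.ZetaDivisibility.eq_of_eqOn_halfPlane h'.diff h.diff fun s hs => by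
    rw [h'.series s hs, h.series s hs]]

theorem charSize_near (ψ : (L ≃ₐ[M] L) →* ℂˣ) (t t' : ℝ) (h : |t'| ≤ |t| + 3) :
    charSize ψ t' ≤ 2 * charSize ψ t := by
  have hle : Real.log (|t'| + 3) ≤ 2 * Real.log (|t| + 3) := by
    rw [show 2 * Real.log (|t| + 3) = Real.log ((|t| + 3) ^ 2) by rw [Real.log_pow]; norm_num]
    refine Real.log_le_log (by positivity) ?_
    nlinarith [abs_nonneg t]
  have h1 := mul_le_mul_of_nonneg_left hle (Nat.cast_nonneg (finrank ℚ M) : (0 : ℝ) ≤ _)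
  have h2 : 0 ≤ Real.log (linA ψ : ℝ) := Real.log_natCast_nonneg _
  rw [charSize, charSize]
  linarith

include hcomm in
/-- **The sizes sum to the height.** -/
theorem sum_charSize_le [Fintype ((L ≃ₐ[M] L) →* ℂˣ)] (t : ℝ) :
    ∑ ψ : (L ≃ₐ[M] L) →* ℂˣ, charSize ψ t ≤ 2 * height L t := by
  have hn : (Fintype.card ((L ≃ₐ[M] L) →* ℂˣ) : ℝ) * finrank ℚ M = finrank ℚ L := by
    rw [← Nat.card_eq_fintype_card, FA.ArtinFE.card_linear hcomm, ← Nat.cast_mul, mul_comm,
      Module.finrank_mul_finrank ℚ M L]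
  have hd : ∑ ψ : (L ≃ₐ[M] L) →* ℂˣ, Real.log (linA ψ : ℝ) =
      Real.log (((discr L).natAbs : ℕ) : ℝ) := by
    rw [FA.ArtinFE.discr_eq_prod_linA hcomm, Nat.cast_prod,
      Real.log_prod fun ψ _ => Nat.cast_ne_zero.2 (linA_pos ψ).ne']
  have hc : (Fintype.card ((L ≃ₐ[M] L) →* ℂˣ) : ℝ) ≤ height L t := by
    refine le_trans ?_ (FA.DedekindZF.finrank_le_height L t)
    rw [← hn]
    exact le_mul_of_one_le_right (Nat.cast_nonneg _) (Nat.one_le_cast.2 finrank_pos)
  have hd0 : 0 ≤ Real.log (((discr L).natAbs : ℕ) : ℝ) :=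
    Real.log_nonneg (Nat.one_le_cast.2 (Int.natAbs_pos.2 (discr_ne_zero L)))
  simp only [charSize, Finset.sum_add_distrib, Finset.sum_const, nsmul_eq_mul, mul_one,
    Finset.card_univ, hd]
  rw [← mul_assoc, hn]
  rw [FA.DedekindZF.height] at hc ⊢
  linarith [mul_nonneg (Nat.cast_nonneg (finrank ℚ L) : (0 : ℝ) ≤ _)
    (zero_le_one.trans (FA.DedekindZF.one_le_log t))]

variable {E : ℂ → ℂ} (hE : Differentiable ℂ E)
  (hEL : ∀ s : ℂ, 1 < s.re → E s = (s - 1) * dedekindZeta L s) (hRH : FieldRH L)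

include hE hEL hRH in
theorem clearedL_ne_zero_of_half_lt (ψ : (L ≃ₐ[M] L) →* ℂˣ) {z : ℂ} (hz : 1 / 2 < z.re) :
    clearedL hcomm ψ z ≠ 0 :=
  FA.EffCheb.clearedL_ne_zero hcomm hE hEL ψ (ne_zero_of_half_lt hE hEL hRH hz)

include hE hEL hRH in
/-- **The logarithmic derivative of a piece.** -/
theorem norm_logDeriv_clearedL_le (ψ : (L ≃ₐ[M] L) →* ℂˣ) {δ : ℝ} (hδ : 0 < δ) (hδ4 : δ ≤ 1 / 4)
    {s : ℂ} (h1 : 1 / 2 + 2 * δ ≤ s.re) (h2 : s.re ≤ 2) :
    ‖deriv (clearedL hcomm ψ) s / clearedL hcomm ψ s‖ ≤ derivC * charSize ψ s.im / δ ^ 2 := by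
  have h := isClearedFine_clearedL hcomm ψ
  refine norm_logDeriv_le_of_bounds h.diff (one_le_charSize ψ) (charSize_near ψ)
    (fun z hz => clearedL_ne_zero_of_half_lt hcomm hE hEL hRH ψ hz) h.upper (fun t => ?_)
    hδ hδ4 h1 h2
  have := h.lower (((2 : ℝ) : ℂ) + t * I) (by simp) (by norm_num)
  simp only [add_re, add_im, ofReal_re, ofReal_im, mul_re, mul_im, I_re, I_im, mul_zero,
    mul_one, sub_self, add_zero, zero_add, show (2 : ℝ) - 1 = 1 by norm_num, div_one] at this
  exact this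

end linear

variable {K : Type*} {L : Type v} [Field K] [NumberField K] [Field L] [NumberField L] [Algebra K L]
variable [IsGalois K L] {E : ℂ → ℂ} (hE : Differentiable ℂ E)
  (hEL : ∀ s : ℂ, 1 < s.re → E s = (s - 1) * dedekindZeta L s) (hRH : FieldRH L)

/-- The series of `C` less its pole. -/
def restSum (C : Set (L ≃ₐ[K] L)) (s : ℂ) : ℂ :=
  ∑ p ∈ pairs C, pairW p * -(deriv (cycL p) s / cycL p s)

theorem LSeries_mangoldtF_eq {C : Set (L ≃ₐ[K] L)} (hC : ∀ g ∈ C, ∀ x, x * g * x⁻¹ ∈ C) {s : ℂ}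
    (hs : 1 < s.re) :
    LSeriesSummable (fun n => (mangoldtF C n : ℂ)) s ∧
      LSeries (fun n => (mangoldtF C n : ℂ)) s = (share C : ℂ) * (s - 1)⁻¹ + restSum C s := by
  obtain ⟨h1, h2⟩ := FA.EffCheb.LSeries_mangoldtF hC (β := 1) le_rfl (δ := fun _ => 0)
    (gd := cycL) (fun p => (isCleared_clearedL _ _).diff) (fun p z => by simp) hs
  refine ⟨h1, h2.trans ?_⟩
  simp [restSum, add_comm]

include hE hEL hRH in
theorem differentiableAt_restSum (C : Set (L ≃ₐ[K] L)) {s : ℂ} (hs : 1 / 2 < s.re) :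
    DifferentiableAt ℂ (restSum C) s :=
  DifferentiableAt.fun_sum fun p _ => ((((((isCleared_clearedL (cyc_comm p.1)
    (liftChar p.1 p.2)).diff.differentiableOn (s := Set.univ)).deriv isOpen_univ).differentiableAt
      Filter.univ_mem).div ((isCleared_clearedL _ _).diff s)
        (clearedL_ne_zero_of_half_lt _ hE hEL hRH _ hs)).neg).const_mul _

include hE hEL hRH in
/-- **The series of `C` on the hypothesis.** -/
theorem norm_restSum_le (C : Set (L ≃ₐ[K] L)) {δ : ℝ} (hδ : 0 < δ) (hδ4 : δ ≤ 1 / 4) {s : ℂ}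
    (h1 : 1 / 2 + 2 * δ ≤ s.re) (h2 : s.re ≤ 2) :
    ‖restSum C s‖ ≤ share C * (2 * derivC * height L s.im / δ ^ 2) := by
  have hA := derivC_nonneg
  rw [restSum, pairs, Finset.sum_sigma, FA.EffCheb.share_eq, mul_assoc, ← nsmul_eq_mul,
    ← Finset.sum_const]
  refine (norm_sum_le _ _).trans (Finset.sum_le_sum fun g _ => (norm_sum_le _ _).trans ?_)
  haveI := FA.ArtinFE.finite_linear (cyc_comm g)
  letI := Fintype.ofFinite ((L ≃ₐ[IntermediateField.fixedField (Subgroup.zpowers g)] L) →* ℂˣ)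
  simp only [norm_mul, FA.EffCheb.norm_pairW, norm_neg, ← Finset.mul_sum]
  refine mul_le_mul_of_nonneg_left ?_ (by positivity)
  calc ∑ ψ : CycDual g, ‖deriv (cycL ⟨g, ψ⟩) s / cycL ⟨g, ψ⟩ s‖
      ≤ ∑ ψ : CycDual g, derivC / δ ^ 2 * charSize (liftChar g ψ) s.im := by
        refine Finset.sum_le_sum fun ψ _ =>
          (norm_logDeriv_clearedL_le _ hE hEL hRH _ hδ hδ4 h1 h2).trans (le_of_eq (by ring))
    _ = derivC / δ ^ 2 * ∑ χ ∈ univ.image (liftChar g), charSize χ s.im := by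
        rw [Finset.mul_sum, Finset.sum_image fun a _ b _ e => liftChar_injective g e]
    _ ≤ derivC / δ ^ 2 *
          ∑ χ : (L ≃ₐ[IntermediateField.fixedField (Subgroup.zpowers g)] L) →* ℂˣ,
            charSize χ s.im := by
        refine mul_le_mul_of_nonneg_left (Finset.sum_le_sum_of_subset_of_nonneg
          (Finset.subset_univ _) fun χ _ _ => zero_le_one.trans (one_le_charSize χ _))
            (by positivity)
    _ ≤ derivC / δ ^ 2 * (2 * height L s.im) :=
        mul_le_mul_of_nonneg_left (sum_charSize_le (cyc_comm g) _) (by positivity)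
    _ = _ := by ring

end FA.ChebGRH

end
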