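import Fermat.Agent.EffectiveChebotarev.Count

/-!
# The ambiguous primes, with the degree

A prime of `K` that ramifies in a Galois `L/K` has every `Q ^ e` above it dividing the square of
the different, as `e ≤ 2 (e - 1)`, so `|G| ∑ log N v ≤ 2 log |d_L|` over the ambiguous primes.
-/

set_option autoImplicit false
set_option linter.style.haveILetI false
set_option linter.unusedSectionVars false

noncomputable section

open NumberField IsDedekindDomain Module Finset
open FA.NaturalChebotarev (someFrobSet finite_someFrobSet_diff)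
open FA.Chebotarev (strictFrobSet)
open FA.ChebError (share mangoldtF setLog)
open FA.DedekindPIT (partialSum)
open scoped Classical Real

namespace FA.ChebGRH

variable {K L : Type*} [Field K] [NumberField K] [Field L] [NumberField L] [Algebra K L]
variable [IsGalois K L]

/-- A ramified prime divides the square of the different. -/
theorem map_dvd_different_sq {v : HeightOneSpectrum (𝓞 K)} {Q : Ideal (𝓞 L)} [Q.IsPrime]
    (hQv : Q.under (𝓞 K) = v.asIdeal) (hQ : Q ∣ differentIdeal (𝓞 K) (𝓞 L)) :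
    v.asIdeal.map (algebraMap (𝓞 K) (𝓞 L)) ∣ differentIdeal (𝓞 K) (𝓞 L) ^ 2 := by
  haveI := v.isMaximal
  haveI : Q.LiesOver v.asIdeal := ⟨hQv.symm⟩
  haveI : Finite (𝓞 K ⧸ v.asIdeal) := Ideal.finiteQuotientOfFreeOfNeBot _ v.ne_bot
  have he : 2 ≤ Q.ramificationIdx (𝓞 K) := by
    have h0 : 0 < Q.ramificationIdx (𝓞 K) := Q.ramificationIdx_pos (𝓞 K)
    have h1 : Q.ramificationIdx (𝓞 K) ≠ 1 := fun h =>
      (dvd_differentIdeal_iff.1 hQ) (Ideal.ramificationIdx_eq_one_iff.1 h)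
    omega
  have hmap := Ideal.map_algebraMap_eq_finsetProd_pow (R := 𝓞 L) v.ne_bot
  refine hmap ▸ Finset.prod_dvd_of_coprime (fun P hP P' hP' hne => ?_) fun P hP => ?_
  · simp only [Finset.mem_coe, Set.mem_toFinset] at hP hP'
    haveI := hP.1.isMaximal (Ideal.ne_bot_of_mem_primesOver v.ne_bot hP)
    haveI := hP'.1.isMaximal (Ideal.ne_bot_of_mem_primesOver v.ne_bot hP')
    exact (Ideal.isCoprime_iff_sup_eq.2 (Ideal.IsMaximal.coprime_of_ne inferInstance
      inferInstance hne)).pow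
  · rw [Set.mem_toFinset] at hP
    haveI := hP.1
    haveI := hP.2
    have hePQ : P.ramificationIdx (𝓞 K) = Q.ramificationIdx (𝓞 K) := by
      rw [← Ideal.ramificationIdxIn_eq_ramificationIdx v.asIdeal P (L ≃ₐ[K] L),
        ← Ideal.ramificationIdxIn_eq_ramificationIdx v.asIdeal Q (L ≃ₐ[K] L)]
    have hd : P ^ (P.ramificationIdx (𝓞 K) - 1) ∣ differentIdeal (𝓞 K) (𝓞 L) := by
      refine pow_sub_one_dvd_differentIdeal (𝓞 K) P _ v.ne_bot (hmap ▸ ?_)
      exact Finset.dvd_prod_of_mem (fun P => P ^ P.ramificationIdx (𝓞 K)) (Set.mem_toFinset.2 hP)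
    refine (pow_dvd_pow P (?_ : P.ramificationIdx (𝓞 K) ≤
      (P.ramificationIdx (𝓞 K) - 1) * 2)).trans ?_
    · omega
    · rw [pow_mul]
      exact pow_dvd_pow_of_dvd hd 2

/-- **`|G| ∑ log N v ≤ 2 log |d_L|` over the ambiguous primes.** -/
theorem card_mul_sum_log_ambiguous_le {C : Set (L ≃ₐ[K] L)}
    (hC : ∀ g ∈ C, ∀ x, x * g * x⁻¹ ∈ C) :
    (Nat.card (L ≃ₐ[K] L) : ℝ) *
        ∑ v ∈ (finite_someFrobSet_diff C hC).toFinset, Real.log (Ideal.absNorm v.asIdeal) ≤
      2 * Real.log (((discr L).natAbs : ℕ) : ℝ) := by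
  set T := (finite_someFrobSet_diff C hC).toFinset
  have hdvd : ∏ v ∈ T, v.asIdeal.map (algebraMap (𝓞 K) (𝓞 L)) ∣
      differentIdeal (𝓞 K) (𝓞 L) ^ 2 := by
    refine Finset.prod_dvd_of_coprime (fun v _ w _ hne => ?_) fun v hv => ?_
    · show IsCoprime _ _
      haveI := v.isMaximal
      haveI := w.isMaximal
      rw [Ideal.isCoprime_iff_sup_eq, ← Ideal.map_sup, Ideal.IsMaximal.coprime_of_ne inferInstance
        inferInstance fun e => hne (HeightOneSpectrum.ext e), Ideal.map_top]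
    · obtain ⟨Q, hQ, hQv, hQd⟩ :=
        FA.EffCheb.exists_dvd_different hC ((finite_someFrobSet_diff C hC).mem_toFinset.1 hv)
      haveI := hQ.isPrime
      exact map_dvd_different_sq hQv hQd
  have h1 := map_dvd Ideal.absNorm hdvd
  rw [map_prod, map_pow] at h1
  simp only [Ideal.absNorm_algebraMap] at h1
  have h2 : Ideal.absNorm (differentIdeal (𝓞 K) (𝓞 L)) ^ 2 ∣ (discr L).natAbs ^ 2 :=
    pow_dvd_pow_of_dvd (Dvd.intro _
      (natAbs_discr_eq_absNorm_differentIdeal_mul_natAbs_discr_pow K (𝓞 K) L (𝓞 L)).symm) 2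
  have h3 := Nat.le_of_dvd (pow_pos (Int.natAbs_pos.2 (discr_ne_zero L)) 2) (h1.trans h2)
  rw [Finset.prod_pow] at h3
  have hr : finrank (𝓞 K) (𝓞 L) = Nat.card (L ≃ₐ[K] L) := by
    rw [IsGalois.card_aut_eq_finrank, ← IsFractionRing.finrank_eq (𝓞 K) K (𝓞 L) L]
  rw [hr] at h3
  have hpos : ∀ v ∈ T, ((Ideal.absNorm v.asIdeal : ℕ) : ℝ) ≠ 0 := fun v _ => by
    have := FA.Ext.two_le_absNorm v
    positivity
  rw [← Real.log_prod hpos, ← Real.log_pow, show (2 : ℝ) * Real.log (((discr L).natAbs : ℕ) : ℝ) =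
    Real.log ((((discr L).natAbs : ℕ) : ℝ) ^ 2) by rw [Real.log_pow]; norm_num]
  refine Real.log_le_log (pow_pos (Finset.prod_pos fun v hv => ?_) _) (by exact_mod_cast h3)
  exact lt_of_le_of_ne (Nat.cast_nonneg _) (hpos v hv).symm

/-- Hence `∑ log N v ≤ 2 share log |d_L|`. -/
theorem sum_log_ambiguous_le_share {C : Set (L ≃ₐ[K] L)} (hC : ∀ g ∈ C, ∀ x, x * g * x⁻¹ ∈ C)
    (hne : C.Nonempty) :
    ∑ v ∈ (finite_someFrobSet_diff C hC).toFinset, Real.log (Ideal.absNorm v.asIdeal) ≤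
      2 * (share C * Real.log (((discr L).natAbs : ℕ) : ℝ)) := by
  have hd : 0 ≤ Real.log (((discr L).natAbs : ℕ) : ℝ) := Real.log_natCast_nonneg _
  have hG : (0 : ℝ) < Nat.card (L ≃ₐ[K] L) := Nat.cast_pos.2 Nat.card_pos
  have h1 : (1 : ℝ) ≤ C.toFinset.card :=
    Nat.one_le_cast.2 (Finset.card_pos.2 (Set.toFinset_nonempty.2 hne))
  refine le_of_mul_le_mul_left ((card_mul_sum_log_ambiguous_le hC).trans ?_) hG
  rw [FA.EffCheb.share_eq]
  field_simp
  exact le_mul_of_one_le_right hd h1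

/-- From `Λ`-sums to sums over primes. -/
theorem psiF_sub_theta_le_share {C : Set (L ≃ₐ[K] L)} (hC : ∀ g ∈ C, ∀ x, x * g * x⁻¹ ∈ C)
    (hne : C.Nonempty) {x : ℝ} (hx : 1 ≤ x) :
    |partialSum (mangoldtF C) x - partialSum (setLog (someFrobSet K L C)) x| ≤
      2 * (share C * Real.log (((discr L).natAbs : ℕ) : ℝ)) +
        share C * finrank ℚ L * (2 * √x * Real.log x) := by
  refine (FA.EffCheb.psiF_sub_theta_sum_le hC hx).trans
    (add_le_add (sum_log_ambiguous_le_share hC hne) (mul_le_mul_of_nonneg_right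
      (FA.EffCheb.finrank_base_le hne) ?_))
  have := Real.log_nonneg hx
  positivity

end FA.ChebGRH

end
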