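import Fermat.Agent.ArtinHooley.PrimeIdeal
import Fermat.Agent.ChebotarevGRH.Pieces
import Fermat.Agent.ChebotarevGRH.Ramified
import Fermat.Agent.EffectiveChebotarev.LeastPrime

/-!
# Chebotarev's theorem on the Riemann hypothesis, uniform in the extension

`ψ_C x = σ x + O (σ S √x (log x + 4) ^ 4)`, `S = 1 + log |d_L| + n_L`, `σ = |C| / [L : K]`, with an
absolute constant; the same for `π_C` against `σ ∫_2^x dt / log t`. So `C` is met by an unramified
prime of norm at most `B S ^ 2 log (2 S) ^ 8`.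
-/

set_option autoImplicit false
set_option linter.style.haveILetI false
set_option linter.unusedSectionVars false

noncomputable section

universe u v

open NumberField IsDedekindDomain Module Finset Complex MeasureTheory Filter
open FA.ArtinHooley (FieldRH derivC derivC_nonneg fieldSize one_le_fieldSize height_le_rpow
  partialSum_sub_le_of_continuation parts_sub_le)
open FA.DedekindPIT (partialSum)
open FA.ChebError (share share_nonneg mangoldtF mangoldtF_nonneg setLog)
open FA.NaturalChebotarev (countIn someFrobSet)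
open FA.EffCheb (goodFrobSet discSet share_pos)
open scoped Real Classical ArithmeticFunction.vonMangoldt

namespace FA.ChebGRH

theorem log_discr_le_fieldSize (L : Type*) [Field L] [NumberField L] :
    0 ≤ Real.log (((discr L).natAbs : ℕ) : ℝ) ∧
      Real.log (((discr L).natAbs : ℕ) : ℝ) ≤ fieldSize L ∧ 2 ≤ fieldSize L := by
  have h0 : 0 ≤ Real.log (((discr L).natAbs : ℕ) : ℝ) := Real.log_natCast_nonneg _
  have h1 : (1 : ℝ) ≤ finrank ℚ L := Nat.one_le_cast.2 finrank_pos
  rw [fieldSize]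
  exact ⟨h0, by linarith, by linarith⟩

/-- **`ψ_C` on the hypothesis.** -/
theorem exists_psiF_le : ∃ A : ℝ, 0 ≤ A ∧
    ∀ {K : Type u} {L : Type v} [Field K] [NumberField K] [Field L] [NumberField L] [Algebra K L]
      [IsGalois K L], FieldRH L → ∀ C : Set (L ≃ₐ[K] L), (∀ g ∈ C, ∀ x, x * g * x⁻¹ ∈ C) →
      ∀ x : ℝ, 1 ≤ x → |partialSum (mangoldtF C) x - share C * x| ≤
        A * share C * fieldSize L * (√x * (Real.log x + 4) ^ 4) := by
  have hA := derivC_nonneg
  refine ⟨(128 * Real.exp 4 + 1) * (6 * derivC + 1) + 81, by positivity,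
    fun {K L} _ _ _ _ _ _ hRH C hC x hx => ?_⟩
  have hs := share_nonneg C
  obtain ⟨hS1, hSn⟩ := one_le_fieldSize (K := L)
  obtain ⟨T, hT⟩ : ∃ T, T = share C * fieldSize L * (√x * (Real.log x + 4) ^ 4) := ⟨_, rfl⟩
  have hl : 0 ≤ Real.log x := Real.log_nonneg hx
  have hT0 : 0 ≤ T := by rw [hT]; positivity
  rw [mul_assoc _ (share C), mul_assoc, ← hT]
  rcases lt_or_ge x 9 with hsmall | hlarge
  · rcases C.eq_empty_or_nonempty with rfl | hne
    · obtain ⟨e1, e2, -⟩ := FA.EffCheb.trivial_empty (K := K) (L := L) x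
      rw [e1, e2, zero_mul, sub_zero, abs_zero]
      positivity
    have hψ : partialSum (mangoldtF C) x ≤ 72 * (share C * fieldSize L) := by
      refine (Finset.sum_le_sum fun n _ => FA.EffCheb.mangoldtF_le_share hne n).trans ?_
      rw [← Finset.mul_sum]
      have hψ0 : ∑ n ∈ Icc 1 ⌊x⌋₊, Λ n ≤ (Real.log 4 + 4) * x := by
        refine le_of_eq_of_le ?_ (Chebyshev.psi_le_const_mul_self (show (0 : ℝ) ≤ x by linarith))
        rw [Chebyshev.psi]
        rfl
      have h4 : Real.log 4 + 4 ≤ 8 := by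
        linarith [Real.log_le_sub_one_of_pos (show (0 : ℝ) < 4 by norm_num)]
      refine (mul_le_mul (mul_le_mul_of_nonneg_left hSn hs)
        (hψ0.trans (show (Real.log 4 + 4) * x ≤ 72 by nlinarith))
        (Finset.sum_nonneg fun n _ => ArithmeticFunction.vonMangoldt_nonneg) (by positivity)).trans
        (le_of_eq (by ring))
    have hψ1 : 0 ≤ partialSum (mangoldtF C) x := Finset.sum_nonneg fun n _ => mangoldtF_nonneg C n
    have h5 : share C * x ≤ 9 * (share C * fieldSize L) := by
      have := le_mul_of_one_le_right hs hS1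
      nlinarith
    have h6 : share C * fieldSize L ≤ T := by
      rw [hT]
      exact le_mul_of_one_le_right (by positivity)
        (one_le_mul_of_one_le_of_one_le (Real.one_le_sqrt.2 hx) (one_le_pow₀ (by linarith)))
    have h7 : 81 * T ≤ ((128 * Real.exp 4 + 1) * (6 * derivC + 1) + 81) * T :=
      mul_le_mul_of_nonneg_right (le_add_of_nonneg_left (by positivity)) hT0
    have h8 : 0 ≤ share C * x := by positivity
    rw [abs_le]
    constructor <;> linarith
  · obtain ⟨E, hE, hEL, -⟩ := FA.ZetaDivisibility.exists_zeta_cleared L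
    have h := partialSum_sub_le_of_continuation (f := mangoldtF C) (σ := share C)
      (D := restSum C) (B := 6 * derivC * (share C * fieldSize L))
      (fun s hs' => LSeries_mangoldtF_eq hC hs')
      (fun s hs' => differentiableAt_restSum hE hEL hRH C hs')
      (fun δ hδ hδ4 u v hu hu2 => by
        refine (norm_restSum_le hE hEL hRH C hδ hδ4 (s := (u : ℂ) + v * I) (by simpa using hu)
          (by simpa using hu2)).trans ?_
        rw [show ((u : ℂ) + v * I).im = v by simp]
        refine (mul_le_mul_of_nonneg_left (div_le_div_of_nonneg_right (mul_le_mul_of_nonneg_left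
          (height_le_rpow (K := L) hδ (by linarith) v) (by positivity)) (by positivity)) hs).trans
          (le_of_eq ?_)
        field_simp
        ring)
      (fun n _ => mangoldtF_nonneg C n) hs (by positivity) hlarge
    refine h.trans ?_
    have h1 : 6 * derivC * (share C * fieldSize L) + share C ≤
        (6 * derivC + 1) * (share C * fieldSize L) := by
      have := le_mul_of_one_le_right hs hS1
      linarith
    refine (mul_le_mul_of_nonneg_right (mul_le_mul_of_nonneg_left h1 (by positivity))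
      (by positivity)).trans ?_
    rw [hT] at hT0 ⊢
    linarith

/-- **`θ_C` on the hypothesis.** -/
theorem exists_thetaF_le : ∃ A : ℝ, 0 ≤ A ∧
    ∀ {K : Type u} {L : Type v} [Field K] [NumberField K] [Field L] [NumberField L] [Algebra K L]
      [IsGalois K L], FieldRH L → ∀ C : Set (L ≃ₐ[K] L), (∀ g ∈ C, ∀ x, x * g * x⁻¹ ∈ C) →
      C.Nonempty → ∀ x : ℝ, 1 ≤ x → |partialSum (setLog (someFrobSet K L C)) x - share C * x| ≤
        A * share C * fieldSize L * (√x * (Real.log x + 4) ^ 4) := by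
  obtain ⟨A, hA, h⟩ := exists_psiF_le.{u, v}
  refine ⟨A + 4, by positivity, fun {K L} _ _ _ _ _ _ hRH C hC hne x hx => ?_⟩
  have hs := share_nonneg C
  obtain ⟨-, hSn⟩ := one_le_fieldSize (K := L)
  obtain ⟨hd0, hd, -⟩ := log_discr_le_fieldSize L
  have h1 := h hRH C hC x hx
  have h2 := psiF_sub_theta_le_share hC hne hx
  obtain ⟨P, hP⟩ : ∃ P, P = √x * (Real.log x + 4) ^ 4 := ⟨_, rfl⟩
  rw [← hP] at h1 ⊢
  have hsq : 1 ≤ √x := Real.one_le_sqrt.2 hx
  have hl : 0 ≤ Real.log x := Real.log_nonneg hx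
  have hP1 : 1 ≤ P := hP ▸ one_le_mul_of_one_le_of_one_le hsq (one_le_pow₀ (by linarith))
  have a1 : share C * Real.log (((discr L).natAbs : ℕ) : ℝ) ≤ share C * fieldSize L * P :=
    (mul_le_mul_of_nonneg_left hd hs).trans
      (le_mul_of_one_le_right (mul_nonneg hs (hd0.trans hd)) hP1)
  have a2 : share C * finrank ℚ L * (2 * √x * Real.log x) ≤
      2 * (share C * fieldSize L * P) := by
    rw [hP]
    calc share C * finrank ℚ L * (2 * √x * Real.log x)
        ≤ share C * fieldSize L * (2 * √x * (Real.log x + 4) ^ 4) := by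
          refine mul_le_mul (mul_le_mul_of_nonneg_left hSn hs) (mul_le_mul_of_nonneg_left
            ((le_add_of_nonneg_right (by norm_num : (0 : ℝ) ≤ 4)).trans
              (le_self_pow₀ (by linarith) (by norm_num))) (by positivity)) (by positivity)
            (mul_nonneg hs (hd0.trans hd))
      _ = _ := by ring
  rw [abs_le] at h1 h2 ⊢
  constructor <;> linarith

/-- **`π_C` on the hypothesis.** -/
theorem exists_countF_le : ∃ A : ℝ, 0 ≤ A ∧
    ∀ {K : Type u} {L : Type v} [Field K] [NumberField K] [Field L] [NumberField L] [Algebra K L]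
      [IsGalois K L], FieldRH L → ∀ C : Set (L ≃ₐ[K] L), (∀ g ∈ C, ∀ x, x * g * x⁻¹ ∈ C) →
      ∀ x : ℝ, 2 ≤ x →
        |(countIn (someFrobSet K L C) x : ℝ) - share C * ∫ t in (2 : ℝ)..x, 1 / Real.log t| ≤
          A * share C * fieldSize L * (√x * Real.log x ^ 4) := by
  obtain ⟨A, hA, h⟩ := exists_thetaF_le.{u, v}
  refine ⟨(7 * A + 3) * 2500, by positivity, fun {K L} _ _ _ _ _ _ hRH C hC x hx => ?_⟩
  rcases C.eq_empty_or_nonempty with rfl | hne
  · obtain ⟨e1, -, e3⟩ := FA.EffCheb.trivial_empty (K := K) (L := L) x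
    simp [e1, e3]
  have hs := share_nonneg C
  obtain ⟨hS1, -⟩ := one_le_fieldSize (K := L)
  have h0 : ∀ k, k ≤ 1 → setLog (someFrobSet K L C) k = 0 := fun k hk =>
    Finset.sum_eq_zero fun v hv => absurd (FA.Ext.two_le_absNorm v) (by
      rw [(Finset.mem_filter.1 hv).2]; omega)
  have hlx : 0.69 ≤ Real.log x :=
    le_trans (by linarith [Real.log_two_gt_d9]) (Real.log_le_log two_pos hx)
  obtain ⟨L4, hL4⟩ : ∃ L4, L4 = (Real.log x + 4) ^ 4 := ⟨_, rfl⟩
  have hL41 : 1 ≤ L4 := hL4 ▸ one_le_pow₀ (by linarith)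
  have hθ : ∀ t : ℝ, 2 ≤ t → t ≤ x →
      |partialSum (setLog (someFrobSet K L C)) t - share C * t| ≤
        A * share C * fieldSize L * L4 * √t := fun t ht htx => by
    refine (h hRH C hC hne t (by linarith)).trans ?_
    rw [mul_assoc _ L4, mul_comm L4]
    refine mul_le_mul_of_nonneg_left (mul_le_mul_of_nonneg_left (hL4 ▸ pow_le_pow_left₀
      (by linarith [Real.log_nonneg (show 1 ≤ t by linarith)])
      (add_le_add (Real.log_le_log (by linarith) htx) le_rfl) 4) (Real.sqrt_nonneg t))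
      (by positivity)
  have h1 := parts_sub_le hs hx (by positivity)
    (FA.ChebError.intervalIntegrable_partialSum _ hx) hθ
  rw [← FA.ChebError.sum_inv_log_eq (h0 0 zero_le_one) (h0 1 le_rfl) hx,
    ← FA.ChebError.countIn_eq_sum] at h1
  refine h1.trans ?_
  have hsq : 1 ≤ √x := Real.one_le_sqrt.2 (by linarith)
  have h3 : share C ≤ share C * fieldSize L * L4 * √x :=
    (le_mul_of_one_le_right hs hS1).trans ((le_mul_of_one_le_right (by positivity) hL41).trans
      (le_mul_of_one_le_right (by positivity) hsq))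
  have h5 : L4 ≤ 2500 * Real.log x ^ 4 := by
    rw [hL4]
    refine (pow_le_pow_left₀ (by linarith) (show Real.log x + 4 ≤ 7 * Real.log x by linarith)
      4).trans ?_
    rw [mul_pow]
    exact mul_le_mul_of_nonneg_right (by norm_num) (by positivity)
  calc 7 * (A * share C * fieldSize L * L4 * √x) + 3 * share C
      ≤ (7 * A + 3) * (share C * fieldSize L * L4 * √x) := by linarith
    _ ≤ (7 * A + 3) * (share C * fieldSize L * (2500 * Real.log x ^ 4) * √x) := by gcongr
    _ = _ := by ring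

theorem exists_large (A : ℝ) (hA : 0 ≤ A) : ∃ u : ℝ, 1 ≤ u ∧
    A * (2 * Real.log u + 14) ^ 4 < u := by
  have h := (Real.isLittleO_pow_log_id_atTop (n := 4)).bound
    (show 0 < 1 / (82 * (A + 1)) by positivity)
  obtain ⟨u, ⟨hu, hlu⟩, hu1⟩ :=
    ((h.and (Real.tendsto_log_atTop.eventually_ge_atTop 14)).and (eventually_ge_atTop 1)).exists
  refine ⟨u, hu1, ?_⟩
  simp only [id, Real.norm_eq_abs, abs_of_nonneg (show 0 ≤ u by linarith),
    abs_of_nonneg (pow_nonneg (show 0 ≤ Real.log u by linarith) 4)] at hu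
  rw [div_mul_eq_mul_div, one_mul, le_div_iff₀ (by positivity)] at hu
  have h2 : (2 * Real.log u + 14) ^ 4 ≤ 81 * Real.log u ^ 4 := by
    refine (pow_le_pow_left₀ (by linarith) (show 2 * Real.log u + 14 ≤ 3 * Real.log u by linarith)
      4).trans (le_of_eq ?_)
    ring
  have h3 : 0 < Real.log u ^ 4 := pow_pos (by linarith) 4
  nlinarith [mul_le_mul_of_nonneg_left h2 hA, mul_nonneg hA h3.le]

/-- **A small prime with Frobenius in `C`, outside `d_L m`.** -/
theorem exists_prime_avoiding_of_RH : ∃ B : ℝ, 0 < B ∧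
    ∀ {K : Type u} {L : Type v} [Field K] [NumberField K] [Field L] [NumberField L] [Algebra K L]
      [IsGalois K L], FieldRH L → ∀ C : Set (L ≃ₐ[K] L), (∀ g ∈ C, ∀ x, x * g * x⁻¹ ∈ C) →
      C.Nonempty → ∀ (R : ℝ) (m : ℕ), fieldSize L ≤ R → m ≠ 0 → Real.log m ≤ R →
      ∃ v ∈ goodFrobSet C, (m : 𝓞 K) ∉ v.asIdeal ∧
        (Ideal.absNorm v.asIdeal : ℝ) ≤ B * R ^ 2 * Real.log (2 * R) ^ 8 := by
  obtain ⟨A, hA, h⟩ := exists_thetaF_le.{u, v}
  obtain ⟨u, hu1, hu⟩ := exists_large (A + 2) (by linarith)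
  refine ⟨u ^ 2, by positivity, fun {K L} _ _ _ _ _ _ hRH C hC hne S m hSR hm hmS => ?_⟩
  obtain ⟨hd0, hd, hS2'⟩ := log_discr_le_fieldSize L
  have hS2 : 2 ≤ S := hS2'.trans hSR
  obtain ⟨l, hl⟩ : ∃ l, l = Real.log (2 * S) := ⟨_, rfl⟩
  rw [← hl]
  have hl1 : 1 ≤ l := by
    rw [hl, Real.le_log_iff_exp_le (by positivity)]
    linarith [Real.exp_one_lt_three]
  obtain ⟨x, hx⟩ : ∃ x, x = u ^ 2 * S ^ 2 * l ^ 8 := ⟨_, rfl⟩
  rw [← hx]
  have hsx : √x = u * S * l ^ 4 := by
    rw [hx, show u ^ 2 * S ^ 2 * l ^ 8 = (u * S * l ^ 4) ^ 2 by ring,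
      Real.sqrt_sq (by positivity)]
  have hl4 : 1 ≤ l ^ 4 := one_le_pow₀ hl1
  have hsx1 : S ≤ √x := by
    rw [hsx, mul_assoc]
    exact (le_mul_of_one_le_right (by linarith) hl4).trans
      (le_mul_of_one_le_left (by positivity) hu1)
  have hx1 : 1 ≤ x := Real.one_le_sqrt.1 (le_trans (by linarith) hsx1)
  have hlog : Real.log x + 4 ≤ (2 * Real.log u + 14) * l := by
    have e : Real.log x = 2 * Real.log u + 2 * Real.log S + 8 * Real.log l := by
      rw [hx, Real.log_mul (by positivity) (by positivity),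
        Real.log_mul (by positivity) (by positivity), Real.log_pow, Real.log_pow, Real.log_pow]
      norm_num
    have e1 : Real.log S ≤ l := hl ▸ Real.log_le_log (by linarith) (by linarith)
    have e2 : Real.log l ≤ l := by linarith [Real.log_le_sub_one_of_pos (show 0 < l by linarith)]
    have e3 := le_mul_of_one_le_right (Real.log_nonneg hu1) hl1
    linarith
  have hbig : (A + 2) * S * (√x * (Real.log x + 4) ^ 4) < x := by
    have hl0 : 0 ≤ Real.log x := Real.log_nonneg hx1
    calc (A + 2) * S * (√x * (Real.log x + 4) ^ 4)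
        ≤ (A + 2) * S * (√x * ((2 * Real.log u + 14) * l) ^ 4) := by gcongr
      _ = (A + 2) * (2 * Real.log u + 14) ^ 4 * (S * l ^ 4 * √x) := by ring
      _ < u * (S * l ^ 4 * √x) := mul_lt_mul_of_pos_right hu (by
          have : 0 < √x := by linarith
          positivity)
      _ = √x * √x := by rw [hsx]; ring
      _ = x := Real.mul_self_sqrt (by linarith)
  obtain ⟨σ, hσ⟩ : ∃ σ, σ = share C := ⟨_, rfl⟩
  have hs : 0 < σ := hσ ▸ share_pos hne
  have h1 := (abs_le.1 ((h hRH C hC hne x hx1).trans (mul_le_mul_of_nonneg_right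
    (mul_le_mul_of_nonneg_left hSR (mul_nonneg hA (share_nonneg C)))
      (by have := Real.log_nonneg hx1; positivity)))).1
  rw [← hσ] at h1
  obtain ⟨W, hW⟩ : ∃ W : Set (HeightOneSpectrum (𝓞 K)),
      W = {v | ((discr L * m : ℤ) : 𝓞 K) ∈ v.asIdeal} := ⟨_, rfl⟩
  have h2 := FA.EffCheb.partialSum_setLog_diff_ge (someFrobSet K L C) W x
  have h3 : partialSum (setLog W) x ≤ 2 * (σ * S * (√x * (Real.log x + 4) ^ 4)) := by
    rw [hW]
    refine (FA.EffCheb.partialSum_setLog_dvd_le
      (mul_ne_zero (discr_ne_zero L) (Nat.cast_ne_zero.2 hm)) x).trans ?_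
    rw [Int.natAbs_mul, Int.natAbs_natCast, Nat.cast_mul, Real.log_mul
      (Nat.cast_ne_zero.2 (Int.natAbs_ne_zero.2 (discr_ne_zero L))) (Nat.cast_ne_zero.2 hm)]
    refine (mul_le_mul_of_nonneg_right (FA.EffCheb.finrank_base_le hne)
      (add_nonneg hd0 (Real.log_natCast_nonneg m))).trans ?_
    rw [← hσ]
    have hn : (finrank ℚ L : ℝ) ≤ S := (one_le_fieldSize (K := L)).2.trans hSR
    calc σ * finrank ℚ L * (Real.log (((discr L).natAbs : ℕ) : ℝ) + Real.log m)
        ≤ σ * S * (S + S) := mul_le_mul (mul_le_mul_of_nonneg_left hn hs.le)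
          (add_le_add (hd.trans hSR) hmS) (add_nonneg hd0 (Real.log_natCast_nonneg m))
          (by positivity)
      _ = 2 * (σ * S * S) := by ring
      _ ≤ 2 * (σ * S * (√x * (Real.log x + 4) ^ 4)) := by
          refine mul_le_mul_of_nonneg_left (mul_le_mul_of_nonneg_left (hsx1.trans
            (le_mul_of_one_le_right (Real.sqrt_nonneg x) (one_le_pow₀ ?_))) (by positivity))
            two_pos.le
          linarith [Real.log_nonneg hx1]
  have h4 := mul_lt_mul_of_pos_left hbig hs
  have hpos : 0 < partialSum (setLog (someFrobSet K L C \ W)) x := by linarith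
  by_contra hno
  push Not at hno
  have h5 : countIn (someFrobSet K L C \ W) x = 0 := by
    simp only [countIn, Finset.card_eq_zero, Finset.filter_eq_empty_iff]
    refine fun v hv hg => ?_
    have hgW : ((discr L * m : ℤ) : 𝓞 K) ∉ v.asIdeal := fun he => hg.2 (by rw [hW]; exact he)
    rw [Int.cast_mul, Int.cast_natCast] at hgW
    exact (hno v ⟨hg.1, fun hd' => hgW (v.asIdeal.mul_mem_right _ hd')⟩
      fun hm' => hgW (v.asIdeal.mul_mem_left _ hm')).not_ge
      ((Nat.cast_le.2 (FA.Hecke.mem_primesLE.1 hv)).trans (Nat.floor_le (by linarith)))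
  have h6 := FA.EffCheb.partialSum_setLog_le (someFrobSet K L C \ W) x
  rw [h5, Nat.cast_zero, zero_mul] at h6
  linarith

/-- **A small unramified prime with Frobenius in `C`.** -/
theorem exists_good_prime_le_of_RH : ∃ B : ℝ, 0 < B ∧
    ∀ {K : Type u} {L : Type v} [Field K] [NumberField K] [Field L] [NumberField L] [Algebra K L]
      [IsGalois K L], FieldRH L → ∀ C : Set (L ≃ₐ[K] L), (∀ g ∈ C, ∀ x, x * g * x⁻¹ ∈ C) →
      C.Nonempty → ∃ v ∈ goodFrobSet C, (Ideal.absNorm v.asIdeal : ℝ) ≤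
        B * fieldSize L ^ 2 * Real.log (2 * fieldSize L) ^ 8 :=
  let ⟨B, hB, h⟩ := exists_prime_avoiding_of_RH.{u, v}
  ⟨B, hB, fun {_ L} _ _ _ _ _ _ hRH C hC hne =>
    let ⟨v, hv, _, hle⟩ := h hRH C hC hne (fieldSize L) 1 le_rfl one_ne_zero (by
      rw [Nat.cast_one, Real.log_one]
      exact zero_le_one.trans (one_le_fieldSize (K := L)).1)
    ⟨v, hv, hle⟩⟩

end FA.ChebGRH

end
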