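import Fermat.Agent.ArtinHooley.Kummer
import Fermat.Agent.ChebotarevGRH.Main
import Fermat.Agent.Root.SummaryFrobenius
import Mathlib.NumberTheory.LegendreSymbol.QuadraticReciprocity
import Mathlib.NumberTheory.NumberField.Cyclotomic.Basic
import Mathlib.NumberTheory.NumberField.Discriminant.Different

/-!
# The least prime in a progression and the least quadratic nonresidue

On the Riemann hypothesis for `ℚ(ζ_q)` every class prime to `q` has a prime `O (q ² log ^ 10 q)`;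
on that for `ℚ(√(± p))`, `± p ≡ 1 (mod 4)`, some prime `O (log ² p (log log p) ^ 8)` is a quadratic
nonresidue modulo `p`, as it is inert there.
-/

set_option autoImplicit false
set_option linter.style.haveILetI false

noncomputable section

universe v

open NumberField IsDedekindDomain Module Polynomial
open FA.ArtinHooley (FieldRH fieldSize)
open scoped Real Classical

namespace FA.ChebGRH

/-- **A small rational prime with Frobenius in `C`.** -/
theorem exists_rat_prime_of_RH : ∃ B : ℝ, 0 < B ∧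
    ∀ {L : Type v} [Field L] [NumberField L] [IsGalois ℚ L], FieldRH L →
      ∀ C : Set (L ≃ₐ[ℚ] L), (∀ g ∈ C, ∀ x, x * g * x⁻¹ ∈ C) → C.Nonempty →
      ∀ (R : ℝ) (m : ℕ), fieldSize L ≤ R → m ≠ 0 → Real.log m ≤ R →
        ∃ p : ℕ, p.Prime ∧ ¬ (p : ℤ) ∣ discr L ∧ ¬ p ∣ m ∧
          (p : ℝ) ≤ B * R ^ 2 * Real.log (2 * R) ^ 8 ∧
          ∃ Q : Ideal (𝓞 L), Q.IsMaximal ∧ (p : 𝓞 L) ∈ Q ∧ ∃ τ ∈ C, IsArithFrobAt ℤ τ Q := by
  obtain ⟨B, hB, h⟩ := exists_prime_avoiding_of_RH.{0, v}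
  refine ⟨B, hB, fun {L} _ _ _ hRH C hC hne R m hR hm hmR => ?_⟩
  obtain ⟨w, ⟨⟨Q, hQ, hQw, τ, hτC, hτ⟩, hd⟩, hwm, hle⟩ := h hRH C hC hne R m hR hm hmR
  obtain ⟨p, hp, hpw⟩ := FA.Ext.exists_rat_prime_mem w
  have hN : Ideal.absNorm w.asIdeal = p := by
    have h1 : Ideal.absNorm w.asIdeal ∣ p := by
      have := map_dvd Ideal.absNorm (Ideal.dvd_span_singleton.2 hpw)
      rwa [Ideal.absNorm_span_singleton, show Algebra.norm ℤ ((p : ℕ) : 𝓞 ℚ) = (p : ℤ) by
        rw [← map_natCast (algebraMap ℤ (𝓞 ℚ)), Algebra.norm_algebraMap,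
          NumberField.RingOfIntegers.rank, Module.finrank_self, pow_one],
        Int.natAbs_natCast] at this
    rcases (Nat.dvd_prime hp).1 h1 with h2 | h2
    · have := FA.Ext.two_le_absNorm w
      omega
    · exact h2
  have hpQ : (p : 𝓞 L) ∈ Q := by
    rw [← hQw, Ideal.mem_comap, map_natCast] at hpw
    exact hpw
  refine ⟨p, hp, fun hdvd => hd ?_, fun hdvd => hwm ?_, hN ▸ hle, Q, hQ, hpQ, τ, hτC,
    fun y => ?_⟩
  · obtain ⟨c, hc⟩ := hdvd
    show ((discr L : ℤ) : 𝓞 ℚ) ∈ w.asIdeal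
    rw [hc, Int.cast_mul, Int.cast_natCast]
    exact w.asIdeal.mul_mem_right _ hpw
  · obtain ⟨c, hc⟩ := hdvd
    rw [hc, Nat.cast_mul]
    exact w.asIdeal.mul_mem_right _ hpw
  · have h1 : Nat.card (ℤ ⧸ Q.under ℤ) = Nat.card (𝓞 ℚ ⧸ Q.under (𝓞 ℚ)) := by
      rw [FA.FrobeniusDensity.card_quotient_under hp hQ.ne_top hpQ, hQw, ← hN,
        Ideal.absNorm_apply, Submodule.cardQuot_apply]
    rw [h1]
    exact hτ y

theorem log_mul_self_le {q : ℕ} (hq : 1 ≤ q) :
    1 + (q : ℝ) * Real.log q + q ≤ 4 * (q * Real.log (2 * q)) ∧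
      Real.log q ≤ 4 * (q * Real.log (2 * q)) ∧
      Real.log (2 * (4 * (q * Real.log (2 * q)))) ≤ 8 * Real.log (2 * q) := by
  have hq1 : (1 : ℝ) ≤ q := Nat.one_le_cast.2 hq
  have hl : 0 ≤ Real.log q := Real.log_natCast_nonneg q
  have hl2 := Real.log_two_gt_d9
  have e : Real.log (2 * q) = Real.log 2 + Real.log q := by
    rw [Real.log_mul two_ne_zero (by positivity)]
  have hll := Real.log_le_sub_one_of_pos (show (0 : ℝ) < q by linarith)
  have h1 : 0.69 ≤ Real.log (2 * q) := by linarith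
  have h2 : Real.log (2 * q) ≤ 2 * q :=
    (Real.log_le_sub_one_of_pos (show (0 : ℝ) < 2 * q by linarith)).trans
      (sub_le_self _ zero_le_one)
  refine ⟨by nlinarith, by nlinarith, ?_⟩
  calc Real.log (2 * (4 * (q * Real.log (2 * q))))
      ≤ Real.log (2 * (4 * (q * (2 * q)))) := by gcongr
    _ = Real.log 16 + 2 * Real.log q := by
        rw [show (2 : ℝ) * (4 * (q * (2 * q))) = 16 * (q : ℝ) ^ 2 by ring,
          Real.log_mul (by norm_num) (by positivity), Real.log_pow, Nat.cast_ofNat]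
    _ ≤ _ := by
        rw [show (16 : ℝ) = 2 ^ 4 by norm_num, Real.log_pow, Nat.cast_ofNat, e]
        linarith

/-- **The least prime in a progression.** -/
theorem exists_prime_progression_of_RH : ∃ B : ℝ, 0 < B ∧
    ∀ (q : ℕ) [NeZero q], FieldRH (CyclotomicField q ℚ) → ∀ a : (ZMod q)ˣ,
      ∃ p : ℕ, p.Prime ∧ (p : ZMod q) = (a : ZMod q) ∧
        (p : ℝ) ≤ B * (q : ℝ) ^ 2 * Real.log (2 * q) ^ 10 := by
  obtain ⟨B, hB, h⟩ := exists_rat_prime_of_RH.{0}
  refine ⟨B * 4 ^ 2 * 8 ^ 8, by positivity, fun q _ hRH a => ?_⟩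
  haveI : NeZero (q : ℚ) := ⟨Nat.cast_ne_zero.mpr (NeZero.ne q)⟩
  haveI : IsCyclotomicExtension {q} ℚ (CyclotomicField q ℚ) :=
    CyclotomicField.isCyclotomicExtension q ℚ
  haveI : IsGalois ℚ (CyclotomicField q ℚ) := IsCyclotomicExtension.isGalois {q} ℚ _
  have hirr := Polynomial.cyclotomic.irreducible_rat (NeZero.pos q)
  obtain ⟨f, hf⟩ : ∃ f : (CyclotomicField q ℚ ≃ₐ[ℚ] CyclotomicField q ℚ) ≃* (ZMod q)ˣ,
      f = IsCyclotomicExtension.autEquivPow (CyclotomicField q ℚ) hirr := ⟨_, rfl⟩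
  obtain ⟨hR1, hR2, hR3⟩ := log_mul_self_le (NeZero.one_le (n := q))
  have hS : fieldSize (CyclotomicField q ℚ) ≤ 4 * (q * Real.log (2 * q)) := by
    refine le_trans ?_ hR1
    have hφ : (finrank ℚ (CyclotomicField q ℚ) : ℝ) ≤ q := by
      rw [IsCyclotomicExtension.Rat.finrank q (CyclotomicField q ℚ)]
      exact_mod_cast Nat.totient_le q
    have hd : Real.log (((discr (CyclotomicField q ℚ)).natAbs : ℕ) : ℝ) ≤ q * Real.log q := by
      rw [← Real.log_pow]
      refine Real.log_le_log (Nat.cast_pos.2 (Int.natAbs_pos.2 (discr_ne_zero _))) ?_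
      rw [← Nat.cast_pow, Nat.cast_le, IsCyclotomicExtension.Rat.natAbs_discr q _]
      exact (Nat.div_le_self _ _).trans (Nat.pow_le_pow_right (NeZero.pos q) (Nat.totient_le q))
    rw [fieldSize]
    linarith
  obtain ⟨p, hp, -, hpq, hle, Q, hQ, hpQ, τ, hτ, hfrob⟩ := h hRH {σ | f σ = a}
    (fun g (hg : f g = a) x => show f (x * g * x⁻¹) = a by
      rw [map_mul, map_mul, map_inv, hg, mul_right_comm, mul_inv_cancel, one_mul])
    ⟨f.symm a, f.apply_symm_apply a⟩ (4 * (q * Real.log (2 * q))) q hS (NeZero.ne q) hR2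
  refine ⟨p, hp, ?_, hle.trans ?_⟩
  · have hζ := IsCyclotomicExtension.zeta_spec q ℚ (CyclotomicField q ℚ)
    have hz : IsPrimitiveRoot hζ.toInteger q := hζ.toInteger_isPrimitiveRoot
    haveI := hQ.isPrime
    have hcard := FA.FrobeniusDensity.card_quotient_under hp hQ.ne_top hpQ
    have hqQ : (q : 𝓞 (CyclotomicField q ℚ)) ∉ Q := fun hmem => hQ.ne_top (by
      obtain ⟨s, t, hst⟩ := (hp.coprime_iff_not_dvd.2 hpq).cast (R := 𝓞 (CyclotomicField q ℚ))
      rw [Ideal.eq_top_iff_one, ← hst]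
      exact Q.add_mem (Q.mul_mem_left _ hpQ) (Q.mul_mem_left _ hmem))
    have h1 : τ • hζ.toInteger = hζ.toInteger ^ Nat.card (ℤ ⧸ Q.under ℤ) :=
      hfrob.apply_of_pow_eq_one hz.pow_eq_one hqQ
    have h2 := congrArg (algebraMap (𝓞 (CyclotomicField q ℚ)) (CyclotomicField q ℚ)) h1
    rw [map_pow, hcard] at h2
    have h3 : hζ.autToPow ℚ τ = a := by
      have : f τ = a := hτ
      rwa [hf] at this
    have h4 : τ (IsCyclotomicExtension.zeta q ℚ (CyclotomicField q ℚ)) =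
        IsCyclotomicExtension.zeta q ℚ (CyclotomicField q ℚ) ^ p := h2
    rw [← hζ.autToPow_spec ℚ τ, h3, (hζ.isOfFinOrder (NeZero.ne q)).pow_eq_pow_iff_modEq,
      ← hζ.eq_orderOf] at h4
    rw [← ZMod.natCast_zmod_val (a : ZMod q)]
    exact ((ZMod.natCast_eq_natCast_iff _ _ _).2 h4).symm
  · have hl : 0 ≤ Real.log (2 * (q : ℝ)) :=
      Real.log_nonneg (by linarith [(Nat.one_le_cast.2 (NeZero.one_le (n := q)) : (1 : ℝ) ≤ q)])
    have hl0 : 0 ≤ Real.log (2 * (4 * (q * Real.log (2 * q)))) := by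
      refine Real.log_nonneg ?_
      have h5 : (1 : ℝ) ≤ q := Nat.one_le_cast.2 (NeZero.one_le (n := q))
      nlinarith [Real.log_natCast_nonneg q]
    calc B * (4 * (q * Real.log (2 * q))) ^ 2 * Real.log (2 * (4 * (q * Real.log (2 * q)))) ^ 8
        ≤ B * (4 * (q * Real.log (2 * q))) ^ 2 * (8 * Real.log (2 * q)) ^ 8 := by gcongr
      _ = _ := by ring

/-- `(-1) ^ ((p - 1) / 2) p`. -/
def starPrime (p : ℕ) : ℤ := (-1) ^ (p / 2) * p

theorem natAbs_starPrime (p : ℕ) : (starPrime p).natAbs = p := by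
  simp [starPrime, Int.natAbs_mul, Int.natAbs_pow]

/-- `ℚ(√(± p))`. -/
abbrev SqrtField (p : ℕ) : Type := FA.ArtinHooley.KummerField (starPrime p) 2

theorem sqrtField_facts {p : ℕ} (hp : p.Prime) :
    IsGalois ℚ (SqrtField p) ∧
      fieldSize (SqrtField p) ≤ 3 + Real.log (4 * p) ∧
      ∃ x : 𝓞 (SqrtField p), x ^ 2 = (starPrime p : 𝓞 (SqrtField p)) ∧
        ∀ τ : SqrtField p ≃ₐ[ℚ] SqrtField p, τ = 1 ∨ τ • x = -x := by
  have hb0 : starPrime p ≠ 0 := fun e => hp.ne_zero (by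
    rw [← natAbs_starPrime p, e, Int.natAbs_zero])
  obtain ⟨P, hP⟩ : ∃ P : ℚ[X], P = X ^ 2 - C (starPrime p : ℚ) := ⟨_, rfl⟩
  have hPsep : P.Separable :=
    hP ▸ separable_X_pow_sub_C _ two_ne_zero (by exact_mod_cast hb0)
  haveI hsf : IsSplittingField ℚ (SqrtField p) P := by
    rw [hP]
    convert Polynomial.IsSplittingField.splittingField (X ^ 2 - C (starPrime p : ℚ)) using 2
    exact Subsingleton.elim _ _
  have hgal : IsGalois ℚ (SqrtField p) :=
    IsGalois.of_separable_splitting_field (p := P) hPsep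
  haveI := hgal
  have hroot : ∀ r : SqrtField p, r ∈ P.rootSet (SqrtField p) ↔
      r ^ 2 = ((starPrime p) : SqrtField p) :=
    fun r => by
    rw [hP, mem_rootSet, map_sub, map_pow, aeval_X, aeval_C, sub_eq_zero,
      map_intCast (algebraMap ℚ (SqrtField p)) (starPrime p)]
    exact and_iff_right (X_pow_sub_C_ne_zero two_pos _)
  obtain ⟨α, hα⟩ : ∃ α : SqrtField p, α ^ 2 = ((starPrime p) : SqrtField p) := by
    have hcard : Fintype.card (P.rootSet (SqrtField p)) = 2 := by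
      rw [card_rootSet_eq_natDegree hPsep (IsSplittingField.splits _ _), hP, natDegree_X_pow_sub_C]
    obtain ⟨⟨α, hα⟩⟩ : Nonempty (P.rootSet (SqrtField p)) :=
      Fintype.card_pos_iff.1 (by rw [hcard]; norm_num)
    exact ⟨α, (hroot α).1 hα⟩
  have hadj : Algebra.adjoin ℚ {α} = ⊤ := by
    rw [eq_top_iff, ← IsSplittingField.adjoin_rootSet (SqrtField p) P, Algebra.adjoin_le_iff]
    intro r hr
    rcases sq_eq_sq_iff_eq_or_eq_neg.1 (((hroot r).1 hr).trans hα.symm) with h | h <;> rw [h]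
    · exact Algebra.self_mem_adjoin_singleton ℚ α
    · exact neg_mem (Algebra.self_mem_adjoin_singleton ℚ α)
  have hint : IsIntegral ℤ α := IsIntegral.of_pow two_pos (by
    rw [hα]; exact isIntegral_algebraMap (R := ℤ) (A := SqrtField p) (x := (starPrime p)))
  obtain ⟨x, hx⟩ : ∃ x : 𝓞 (SqrtField p), (x : SqrtField p) = α := ⟨⟨α, hint⟩, rfl⟩
  have hx2 : x ^ 2 = ((starPrime p) : 𝓞 (SqrtField p)) := RingOfIntegers.ext (by
    simp only [map_pow, map_intCast]
    exact (congrArg (· ^ 2) hx).trans hα)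
  have hn : finrank ℚ (SqrtField p) ≤ 2 := by
    have hintQ : IsIntegral ℚ α := Algebra.IsIntegral.isIntegral α
    rw [← IntermediateField.finrank_top', ← show IntermediateField.adjoin ℚ {α} = ⊤ from
      IntermediateField.toSubalgebra_injective (by
        rw [IntermediateField.adjoin_simple_toSubalgebra_of_isAlgebraic hintQ.isAlgebraic, hadj,
          IntermediateField.top_toSubalgebra]), IntermediateField.adjoin.finrank hintQ]
    refine le_of_le_of_eq (natDegree_le_of_dvd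
      (minpoly.dvd ℚ α (p := X ^ 2 - C ((starPrime p) : ℚ)) ?_)
      (X_pow_sub_C_ne_zero two_pos _)) natDegree_X_pow_sub_C
    simp [hα]
  refine ⟨hgal, ?_, x, hx2, fun τ => ?_⟩
  · obtain ⟨r, hr⟩ : minpoly ℤ x ∣ X ^ 2 - C (starPrime p) :=
      minpoly.isIntegrallyClosed_dvd (Algebra.IsIntegral.isIntegral x) (by simp [hx2])
    have hmem : (2 : 𝓞 (SqrtField p)) * x ∈ differentIdeal ℤ (𝓞 (SqrtField p)) := by
      have h1 : aeval x (derivative (X ^ 2 - C (starPrime p))) = (2 : 𝓞 (SqrtField p)) * x := by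
        simp [derivative_pow, map_ofNat]
      rw [← h1, hr, derivative_mul, map_add, map_mul, map_mul, minpoly.aeval, zero_mul, add_zero]
      refine Ideal.mul_mem_right _ _
        (aeval_derivative_mem_differentIdeal ℤ ℚ (SqrtField p) x ?_)
      rw [show algebraMap (𝓞 (SqrtField p)) (SqrtField p) x = α from hx]
      exact hadj
    obtain ⟨n, hn'⟩ : ∃ n, n = finrank ℚ (SqrtField p) := ⟨_, rfl⟩
    have hdiv : (discr (SqrtField p)).natAbs ∣
        (Algebra.norm ℤ ((2 : 𝓞 (SqrtField p)) * x)).natAbs := by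
      rw [← NumberField.absNorm_differentIdeal (SqrtField p) (𝓞 (SqrtField p)),
        ← Ideal.absNorm_span_singleton]
      exact Ideal.absNorm_dvd_absNorm_of_le ((Ideal.span_singleton_le_iff_mem _).2 hmem)
    have hN : (Algebra.norm ℤ ((2 : 𝓞 (SqrtField p)) * x)).natAbs ^ 2 = (2 ^ n) ^ 2 * p ^ n := by
      have h2 : (Algebra.norm ℤ x).natAbs ^ 2 = p ^ n := by
        rw [← Int.natAbs_pow, ← map_pow, hx2,
          show ((starPrime p) : 𝓞 (SqrtField p)) = algebraMap ℤ _ (starPrime p) by simp,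
          Algebra.norm_algebraMap, RingOfIntegers.rank, ← hn', Int.natAbs_pow, natAbs_starPrime]
      rw [map_mul, Int.natAbs_mul, mul_pow, h2,
        show (2 : 𝓞 (SqrtField p)) = algebraMap ℤ _ 2 by simp,
        Algebra.norm_algebraMap, RingOfIntegers.rank, ← hn', Int.natAbs_pow]
      rfl
    have hle : (discr (SqrtField p)).natAbs ^ 2 ≤ (4 * p) ^ 2 := by
      refine (Nat.le_of_dvd ?_ ((pow_dvd_pow_of_dvd hdiv 2).trans hN.dvd)).trans ?_
      · exact Nat.mul_pos (pow_pos (pow_pos two_pos _) _) (pow_pos hp.pos _)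
      · rw [mul_pow, show (4 : ℕ) ^ 2 = (2 ^ 2) ^ 2 by norm_num]
        gcongr <;> first | omega | linarith [hp.one_le]
    have hle' : (discr (SqrtField p)).natAbs ≤ 4 * p :=
      (Nat.pow_le_pow_iff_left two_ne_zero).1 hle
    rw [fieldSize]
    have h2 : (finrank ℚ (SqrtField p) : ℝ) ≤ 2 := by exact_mod_cast hn
    have h3 := Real.log_le_log (Nat.cast_pos.2 (Int.natAbs_pos.2 (discr_ne_zero (SqrtField p))))
      (show (((discr (SqrtField p)).natAbs : ℕ) : ℝ) ≤ 4 * p by exact_mod_cast hle')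
    linarith
  · rcases sq_eq_sq_iff_eq_or_eq_neg.1 (show τ α ^ 2 = α ^ 2 by
      rw [← map_pow, hα, map_intCast τ (starPrime p)]) with h | h
    · refine Or.inl (AlgEquiv.ext fun y => ?_)
      have hy : y ∈ Algebra.adjoin ℚ {α} := hadj ▸ Algebra.mem_top
      induction hy using Algebra.adjoin_induction with
      | mem r hr =>
        rw [Set.mem_singleton_iff] at hr
        rw [hr, h]
        rfl
      | algebraMap q => rw [τ.commutes]; rfl
      | add r s _ _ h1 h2 => rw [map_add, h1, h2, map_add]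
      | mul r s _ _ h1 h2 => rw [map_mul, h1, h2, map_mul]
    · refine Or.inr (RingOfIntegers.coe_injective ?_)
      rw [map_neg]
      show τ (x : SqrtField p) = -(x : SqrtField p)
      rw [hx, h]

theorem not_isSquare_of_starPrime {p l : ℕ} [Fact p.Prime] [Fact l.Prime] (hp : p ≠ 2)
    (hl : l ≠ 2) (hpl : p ≠ l) (h : ¬ IsSquare ((starPrime p : ℤ) : ZMod l)) :
    ¬ IsSquare (l : ZMod p) := fun hsq => h (by
  have hl4 : l % 4 = 1 ∨ l % 4 = 3 := by
    rcases (Fact.out : l.Prime).eq_two_or_odd with e | e <;> omega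
  rcases (Fact.out : p.Prime).eq_two_or_odd with e | e
  · exact absurd e hp
  rcases (show p % 4 = 1 ∨ p % 4 = 3 by omega) with h4 | h4
  · have : starPrime p = p := by
      rw [starPrime, Even.neg_one_pow ⟨p / 4, by omega⟩, one_mul]
    rw [this, Int.cast_natCast]
    exact (ZMod.exists_sq_eq_prime_iff_of_mod_four_eq_one h4 hl).1 hsq
  · have : starPrime p = -1 * p := by
      rw [starPrime, Odd.neg_one_pow ⟨p / 4, by omega⟩]
    have hp0 : ((p : ℤ) : ZMod l) ≠ 0 := by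
      rw [Int.cast_natCast, Ne, ZMod.natCast_eq_zero_iff, Nat.prime_dvd_prime_iff_eq Fact.out
        Fact.out]
      exact hpl.symm
    have hm0 : ((starPrime p : ℤ) : ZMod l) ≠ 0 := by
      rw [this, Int.cast_mul]
      exact mul_ne_zero (by simp) hp0
    rw [← legendreSym.eq_one_iff l hm0, this, legendreSym.mul, legendreSym.at_neg_one hl]
    rcases hl4 with h5 | h5
    · rw [ZMod.χ₄_nat_one_mod_four h5, one_mul, legendreSym.eq_one_iff l hp0, Int.cast_natCast]
      exact (ZMod.exists_sq_eq_prime_iff_of_mod_four_eq_one h5 hp).2 hsq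
    · rw [ZMod.χ₄_nat_three_mod_four h5, neg_one_mul, neg_eq_iff_eq_neg,
        legendreSym.eq_neg_one_iff, Int.cast_natCast]
      exact (ZMod.exists_sq_eq_prime_iff_of_mod_four_eq_three h4 h5 hpl).1 hsq)

/-- **The least quadratic nonresidue.** -/
theorem exists_nonresidue_of_RH : ∃ B : ℝ, 0 < B ∧
    ∀ (p : ℕ) [Fact p.Prime], p ≠ 2 → FieldRH (SqrtField p) →
      ∃ l : ℕ, l.Prime ∧ ¬ IsSquare (l : ZMod p) ∧
        (l : ℝ) ≤ B * Real.log p ^ 2 * Real.log (16 * Real.log p) ^ 8 := by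
  obtain ⟨B, hB, h⟩ := exists_rat_prime_of_RH.{0}
  refine ⟨B * 8 ^ 2, by positivity, fun p hpf hp2 hRH => ?_⟩
  have hp : p.Prime := hpf.out
  have hp3 : 3 ≤ p := by have := hp.two_le; omega
  obtain ⟨hgal, hS, x, hx2, hτx⟩ := sqrtField_facts hp
  haveI := hgal
  have hlp : 1 ≤ Real.log p := by
    rw [Real.le_log_iff_exp_le (by exact_mod_cast hp.pos)]
    exact Real.exp_one_lt_three.le.trans (by exact_mod_cast hp3)
  have hl2 := Real.log_two_lt_d9
  have hl2' := Real.log_two_gt_d9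
  have e4 : Real.log (4 * p) = 2 * Real.log 2 + Real.log p := by
    rw [Real.log_mul (by norm_num) (by exact_mod_cast hp.ne_zero),
      show (4 : ℝ) = 2 ^ 2 by norm_num, Real.log_pow, Nat.cast_ofNat]
  have hne : ∃ σ : SqrtField p ≃ₐ[ℚ] SqrtField p, σ ≠ 1 := by
    by_contra hall
    push Not at hall
    obtain ⟨r, hr⟩ : (x : SqrtField p) ∈ Set.range (algebraMap ℚ (SqrtField p)) :=
      IntermediateField.mem_bot.1 ((IsGalois.mem_bot_iff_fixed _).2 fun σ => by rw [hall σ]; rfl)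
    have hsq : r ^ 2 = (starPrime p : ℚ) := by
      refine (algebraMap ℚ (SqrtField p)).injective ?_
      rw [map_pow, hr, map_intCast (algebraMap ℚ (SqrtField p)) (starPrime p)]
      exact (map_pow (algebraMap (𝓞 (SqrtField p)) (SqrtField p)) x 2).symm.trans
        ((congrArg (algebraMap (𝓞 (SqrtField p)) (SqrtField p)) hx2).trans (map_intCast _ _))
    obtain ⟨k, hk⟩ : IsSquare (starPrime p) :=
      Rat.isSquare_intCast_iff.1 ⟨r, by rw [← hsq]; ring⟩
    have := congrArg Int.natAbs hk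
    rw [natAbs_starPrime, Int.natAbs_mul] at this
    exact hp.prime.not_isSquare ⟨k.natAbs, this⟩
  obtain ⟨l, hl, -, hlm, hle, Q, hQ, hlQ, τ, hτ1, hfrob⟩ :=
    h hRH {σ | σ ≠ 1} (fun g (hg : g ≠ 1) y => fun e => hg (conj_eq_one_iff.1 e)) hne
      (8 * Real.log p) (2 * p) (hS.trans (by linarith)) (by omega)
      (by push_cast; rw [Real.log_mul two_ne_zero (by exact_mod_cast hp.ne_zero)]; linarith)
  haveI : Fact l.Prime := ⟨hl⟩
  have hl2 : l ≠ 2 := fun e => hlm (e ▸ dvd_mul_right 2 p)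
  have hpl : p ≠ l := fun e => hlm (e ▸ dvd_mul_left p 2)
  refine ⟨l, hl, not_isSquare_of_starPrime hp2 hl2 hpl ?_, hle.trans (le_of_eq ?_)⟩
  · rintro ⟨c, hc⟩
    haveI := hQ.isPrime
    have hτ : τ • x = -x := (hτx τ).resolve_left hτ1
    obtain ⟨mq, hπ⟩ : ∃ mq : 𝓞 (SqrtField p) →+* 𝓞 (SqrtField p) ⧸ Q, mq = Ideal.Quotient.mk Q :=
      ⟨_, rfl⟩
    have hl0 : (l : 𝓞 (SqrtField p) ⧸ Q) = 0 := by
      rw [← map_natCast (Ideal.Quotient.mk Q), Ideal.Quotient.eq_zero_iff_mem]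
      exact hlQ
    haveI : CharP (𝓞 (SqrtField p) ⧸ Q) l := (CharP.charP_iff_prime_eq_zero hl).2 hl0
    obtain ⟨φ, hφ⟩ : ∃ φ : ZMod l →+* 𝓞 (SqrtField p) ⧸ Q, φ = ZMod.castHom dvd_rfl _ :=
      ⟨_, rfl⟩
    have hb : mq x * mq x = φ c * φ c := by
      rw [← map_mul, ← map_mul, ← hc, map_intCast φ, ← pow_two, hx2, map_intCast mq]
    have hfix : mq x ^ l = mq x := by
      rcases mul_self_eq_mul_self_iff.1 hb with e | e <;>
        simp only [e, ← map_neg, ← map_pow, ZMod.pow_card]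
    have h1 : mq (τ • x) = mq x ^ l := by
      rw [hπ, ← map_pow, Ideal.Quotient.eq,
        ← FA.FrobeniusDensity.card_quotient_under hl hQ.ne_top hlQ]
      exact hfrob x
    rw [hτ, hfix, map_neg, eq_comm, eq_neg_iff_add_eq_zero, ← two_mul, mul_eq_zero] at h1
    have hnz : ∀ d : ℕ, ¬ l ∣ d → (d : 𝓞 (SqrtField p) ⧸ Q) ≠ 0 := fun d hd e =>
      hd ((CharP.cast_eq_zero_iff _ l d).1 e)
    rcases h1 with e | e
    · exact hnz 2 (fun e' => hl2 ((Nat.prime_dvd_prime_iff_eq hl Nat.prime_two).1 e'))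
        (by exact_mod_cast e)
    · have := congrArg (· ^ 2) e
      simp only [← map_pow, hx2, map_intCast mq, zero_pow two_ne_zero] at this
      have h5 := Int.natCast_dvd.1 ((CharP.intCast_eq_zero_iff _ l _).1 this)
      rw [natAbs_starPrime] at h5
      exact hpl ((Nat.prime_dvd_prime_iff_eq hl hp).1 h5).symm
  · rw [show 2 * (8 * Real.log p) = 16 * Real.log p by ring]
    ring

end FA.ChebGRH

end
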